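import Fermat.Agent.S12.Defs
import Fermat.Agent.S13.FreyTwo
import Fermat.Agent.S13.FreyP

/-!
# S12 / Frey : the local `XiData` at a place `A ∣ ℓ`
-/

set_option autoImplicit false

namespace Fermat.Agent.S12

open WeierstrassCurve WeierstrassCurve.Affine Fermat.Agent.S05 Fermat.Agent.S13

/-- the `XiData` of the Frey curve attached to a rational root `e` of the 2-division polynomial. -/
theorem Datum_exists_of_rat (P : FreyPackage) (e c : ℚ)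
    (he : 4 * e ^ 3 + P.freyCurve.b₂ * e ^ 2 + 2 * P.freyCurve.b₄ * e + P.freyCurve.b₆ = 0)
    (hc : 2 * c = 6 * e ^ 2 + P.freyCurve.b₂ * e + P.freyCurve.b₄) (hc0 : c ≠ 0) :
    ∃ D : XiData Kb (Pt P), (∀ R, D.ξ R = xc R - (e : Kb)) ∧ (∀ R, D.ψ R = ps R) ∧
      D.B = ((12 * e + P.freyCurve.b₂ : ℚ) : Kb) ∧ D.c = (c : Kb) ∧
      (∃ T : Pt P, T ≠ 0 ∧ D.ξ T = 0) := by
  have h20 : (2 : Kb) ≠ 0 := two_ne_zero
  have hb2 : (P.freyCurve⁄Kb).b₂ = ((P.freyCurve.b₂ : ℚ) : Kb) :=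
    (WeierstrassCurve.map_b₂ _ _).trans (eq_ratCast _ _)
  have hb4 : (P.freyCurve⁄Kb).b₄ = ((P.freyCurve.b₄ : ℚ) : Kb) :=
    (WeierstrassCurve.map_b₄ _ _).trans (eq_ratCast _ _)
  have hb6 : (P.freyCurve⁄Kb).b₆ = ((P.freyCurve.b₆ : ℚ) : Kb) :=
    (WeierstrassCurve.map_b₆ _ _).trans (eq_ratCast _ _)
  have he' : 4 * (e : Kb) ^ 3 + (P.freyCurve⁄Kb).b₂ * (e : Kb) ^ 2 +
      2 * (P.freyCurve⁄Kb).b₄ * (e : Kb) + (P.freyCurve⁄Kb).b₆ = 0 := by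
    rw [hb2, hb4, hb6]
    exact_mod_cast congrArg (Rat.cast : ℚ → Kb) he
  have hc' : 2 * (c : Kb) = 6 * (e : Kb) ^ 2 + (P.freyCurve⁄Kb).b₂ * (e : Kb) +
      (P.freyCurve⁄Kb).b₄ := by
    rw [hb2, hb4]
    exact_mod_cast congrArg (Rat.cast : ℚ → Kb) hc
  have hc0' : (c : Kb) ≠ 0 := by exact_mod_cast hc0
  obtain ⟨T, hT0, hTe⟩ := exists_T (P.freyCurve⁄Kb) h20 _ _ he' hc' hc0'
  refine ⟨xiDataOfCurve (P.freyCurve⁄Kb) h20 _ _ he' hc', fun _ => rfl, fun _ => rfl, ?_, rfl,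
    T, hT0, ?_⟩
  · show 12 * (e : Kb) + (P.freyCurve⁄Kb).b₂ = _
    rw [hb2]
    push_cast
    ring
  · show xc T - (e : Kb) = 0
    rw [hTe, sub_self]

/-- As in `S05.result` / `S05.curve_main` (`Fermat/Agent/S05.lean`, `S05/CurveMain.lean`): `D = xiDataOfCurve (P.freyCurve⁄Kb) _ e c _ _`,
`T` from `S05.exists_T`.
* `ℓ ∣ c` (then `ℓ` is odd): `e = a^p/4`, `c_D = a^p c^p/16`, `B = 2a^p + b^p`, `B² - 64 c_D = b^(2p)`;
* `ℓ ∤ c` (this includes `ℓ = 2`): `e = 0`, `c_D = -a^p b^p/16 = a₄` (an integer: `S13.frey_a₄_two`, `S13.frey_coeff_mem`;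
  for `ℓ = 2` see `S13/FreyTwo.lean`: `f2_D`, `f2_val_c`, `f2_val_B`), `B = b₂ = b^p - a^p`, `B² - 64 c_D = c^(2p)`. -/
theorem exists_locDatum (P : FreyPackage) {ℓ : ℕ} (hℓ : ℓ.Prime) (A : ValuationSubring Kb)
    (hA : A.LiesOverPrime ℓ) :
    ∃ (e : ℚ) (D : XiData Kb (Pt P)), (∀ R, D.ξ R = xc R - (e : Kb)) ∧ (∀ R, D.ψ R = ps R) ∧
      D.B ∈ A ∧ D.c ∈ A ∧ A.valuation (D.B ^ 2 - 64 * D.c) = 1 ∧
      (∃ T : Pt P, T ≠ 0 ∧ D.ξ T = 0) ∧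
      (D.c ∈ A.nonunits ↔ (ℓ : ℤ) ∣ P.a * P.b * P.c) := by
  have hFLT : (P.a : ℚ) ^ P.p + (P.b : ℚ) ^ P.p = (P.c : ℚ) ^ P.p := by exact_mod_cast P.hFLT
  have hb2 := frey_b₂ P
  have hb4 := frey_b₄ P
  have hb6 := frey_b₆ P
  have hℓ' : Prime (ℓ : ℤ) := Nat.prime_iff_prime_int.mp hℓ
  have ha0 : (P.a : ℚ) ≠ 0 := by exact_mod_cast P.ha0
  have hb0 : (P.b : ℚ) ≠ 0 := by exact_mod_cast P.hb0
  have hc0 : (P.c : ℚ) ≠ 0 := by exact_mod_cast P.hc0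
  by_cases hℓc : (ℓ : ℤ) ∣ P.c
  · -- `ℓ ∣ c`
    have hℓb : ¬ (ℓ : ℤ) ∣ P.b := fun h => frey_not_dvd_of_gcd P.hgcdbc ℓ hℓ h hℓc
    have hℓ2 : ¬ (ℓ : ℤ) ∣ 2 := by
      intro h
      exact hℓb (h.trans (frey_two_dvd_b P))
    have hv2 : A.valuation (2 : Kb) = 1 := by
      have := freyP_val_intCast A hℓ hA hℓ2
      simpa using this
    have hv16 : A.valuation (16 : Kb) = 1 := by
      have h16 : (16 : Kb) = 2 ^ 4 := by norm_num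
      rw [h16, map_pow, hv2, one_pow]
    obtain ⟨D, hξ, hψ, hB, hc, hT⟩ := Datum_exists_of_rat P ((P.a : ℚ) ^ P.p / 4)
      ((P.a : ℚ) ^ P.p * (P.c : ℚ) ^ P.p / 16)
      (by rw [hb2, hb4, hb6]; ring) (by rw [hb2, hb4, ← hFLT]; ring)
      (div_ne_zero (mul_ne_zero (pow_ne_zero _ ha0) (pow_ne_zero _ hc0)) (by norm_num))
    have hB' : D.B = ((2 * P.a ^ P.p + P.b ^ P.p : ℤ) : Kb) := by
      rw [hB, hb2]
      push_cast
      ring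
    have hc' : D.c = ((P.a ^ P.p * P.c ^ P.p : ℤ) : Kb) * (16 : Kb)⁻¹ := by
      rw [hc]
      push_cast
      ring
    have hcn : D.c ∈ A.nonunits := by
      rw [hc']
      refine nonunits_mul_mem A ?_ (inv_mem_of_val_eq_one A hv16)
      rw [intCast_mem_nonunits_iff A hℓ hA]
      exact Dvd.dvd.mul_left (dvd_pow hℓc P.hp0) _
    refine ⟨_, D, hξ, hψ, ?_, mem_of_nonunits A hcn, ?_, hT, ?_⟩
    · rw [hB']; exact intCast_mem A _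
    · have h1 : D.B ^ 2 - 64 * D.c = ((P.b : ℤ) : Kb) ^ (2 * P.p) := by
        rw [hB, hc, hb2]
        have h2 : (12 * ((P.a : ℚ) ^ P.p / 4) + ((P.b : ℚ) ^ P.p - (P.a : ℚ) ^ P.p)) ^ 2 -
            64 * ((P.a : ℚ) ^ P.p * (P.c : ℚ) ^ P.p / 16) = (P.b : ℚ) ^ (2 * P.p) := by
          rw [← hFLT]; ring
        exact_mod_cast congrArg (Rat.cast : ℚ → Kb) h2
      rw [h1, map_pow, freyP_val_intCast A hℓ hA hℓb, one_pow]
    · exact ⟨fun _ => Dvd.dvd.mul_left hℓc _, fun _ => hcn⟩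
  · -- `ℓ ∤ c`
    obtain ⟨m, u, hm, -, hu, ha4⟩ := frey_a₄_two P
    have ha4' : P.freyCurve.a₄ = -((P.a : ℚ) ^ P.p * (P.b : ℚ) ^ P.p) / 16 := by
      simp only [FreyPackage.freyCurve]; ring
    obtain ⟨D, hξ, hψ, hB, hc, hT⟩ := Datum_exists_of_rat P 0
      (-((P.a : ℚ) ^ P.p * (P.b : ℚ) ^ P.p) / 16)
      (by rw [hb6]; ring) (by rw [hb4]; ring)
      (div_ne_zero (neg_ne_zero.2 (mul_ne_zero (pow_ne_zero _ ha0) (pow_ne_zero _ hb0)))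
        (by norm_num))
    have hB' : D.B = ((P.b ^ P.p - P.a ^ P.p : ℤ) : Kb) := by
      rw [hB, hb2]
      push_cast
      ring
    have hc' : D.c = ((2 ^ m * u : ℤ) : Kb) := by
      rw [hc, ← ha4', ha4]
      push_cast
      ring
    have h16 : 16 * (2 ^ m * u : ℤ) = -(P.a ^ P.p * P.b ^ P.p) := by
      have h1 : (16 : ℚ) * ((2 ^ m * u : ℤ) : ℚ) = -((P.a : ℚ) ^ P.p * (P.b : ℚ) ^ P.p) := by
        rw [← ha4, ha4']; ring
      exact_mod_cast h1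
    refine ⟨0, D, hξ, hψ, ?_, ?_, ?_, hT, ?_⟩
    · rw [hB']; exact intCast_mem A _
    · rw [hc']; exact intCast_mem A _
    · have h1 : D.B ^ 2 - 64 * D.c = ((P.c : ℤ) : Kb) ^ (2 * P.p) := by
        rw [hB, hc, hb2]
        have h2 : (12 * (0 : ℚ) + ((P.b : ℚ) ^ P.p - (P.a : ℚ) ^ P.p)) ^ 2 -
            64 * (-((P.a : ℚ) ^ P.p * (P.b : ℚ) ^ P.p) / 16) = (P.c : ℚ) ^ (2 * P.p) := by
          rw [mul_comm 2 P.p, pow_mul, ← hFLT]; ring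
        exact_mod_cast congrArg (Rat.cast : ℚ → Kb) h2
      rw [h1, map_pow, freyP_val_intCast A hℓ hA hℓc, one_pow]
    · rw [hc', intCast_mem_nonunits_iff A hℓ hA]
      constructor
      · intro h
        have h1 : (ℓ : ℤ) ∣ P.a ^ P.p * P.b ^ P.p := by
          have := Dvd.dvd.mul_left h (16 : ℤ)
          rw [h16] at this
          exact (dvd_neg).1 this
        rcases hℓ'.dvd_or_dvd h1 with h2 | h2
        · exact Dvd.dvd.mul_right (Dvd.dvd.mul_right (hℓ'.dvd_of_dvd_pow h2) _) _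
        · exact Dvd.dvd.mul_right (Dvd.dvd.mul_left (hℓ'.dvd_of_dvd_pow h2) _) _
      · intro h
        by_cases hℓ2 : (ℓ : ℤ) ∣ 2
        · exact Dvd.dvd.mul_right (dvd_pow hℓ2 hm.ne') _
        · have h1 : (ℓ : ℤ) ∣ P.a * P.b := (hℓ'.dvd_or_dvd h).resolve_right hℓc
          have h2 : (ℓ : ℤ) ∣ 16 * (2 ^ m * u : ℤ) := by
            rw [h16, dvd_neg, ← mul_pow]
            exact dvd_pow h1 P.hp0
          refine (hℓ'.dvd_or_dvd h2).resolve_left ?_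
          intro h3
          have h4 : (16 : ℤ) = 2 ^ 4 := by norm_num
          rw [h4] at h3
          exact hℓ2 (hℓ'.dvd_of_dvd_pow h3)

end Fermat.Agent.S12
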