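import Fermat.Agent.S13.FreyFacts

/-!
# S12 / Frey : the integral model `P.freyCurveInt`
-/

set_option autoImplicit false

namespace Fermat.Agent.S12

open WeierstrassCurve Fermat.Agent.S13

theorem Int_four_dvd (P : FreyPackage) : (4 : ℤ) ∣ P.b ^ P.p - 1 - P.a ^ P.p := by
  have h : ((P.b ^ P.p - 1 - P.a ^ P.p : ℤ) : ZMod 4) = 0 := by
    obtain ⟨k, hk⟩ := frey_two_dvd_b P
    have hp : P.p = 2 + (P.p - 2) := by have := P.hp5; omega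
    have hb : ((P.b ^ P.p : ℤ) : ZMod 4) = 0 := by
      rw [hk, hp, pow_add, mul_pow]
      push_cast
      have : (4 : ZMod 4) = 0 := by decide
      rw [this]; ring
    have ha : ((P.a ^ P.p : ℤ) : ZMod 4) = -1 := by
      push_cast
      rw [P.ha4]
      have : (3 : ZMod 4) = -1 := by decide
      rw [this, P.hp_odd.neg_one_pow]
    push_cast at hb ha ⊢
    rw [hb, ha]; ring
  have h4 : ((4 : ℕ) : ℤ) ∣ P.b ^ P.p - 1 - P.a ^ P.p := (ZMod.intCast_zmod_eq_zero_iff_dvd _ 4).1 h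
  exact_mod_cast h4

theorem Int_sixteen_dvd (P : FreyPackage) : (16 : ℤ) ∣ -(P.a ^ P.p) * (P.b ^ P.p) := by
  obtain ⟨k, hk⟩ := frey_two_dvd_b P
  have hp : P.p = 4 + (P.p - 4) := by have := P.hp5; omega
  refine Dvd.dvd.mul_left ?_ _
  rw [hk, hp, pow_add, mul_pow]
  exact ⟨k ^ 4 * (2 * k) ^ (P.p - 4), by ring⟩

theorem Int_a₂ (P : FreyPackage) : 4 * P.freyCurveInt.a₂ = P.b ^ P.p - 1 - P.a ^ P.p :=
  Int.mul_ediv_cancel' (Int_four_dvd P)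

theorem Int_a₄ (P : FreyPackage) : 16 * P.freyCurveInt.a₄ = -(P.a ^ P.p) * (P.b ^ P.p) :=
  Int.mul_ediv_cancel' (Int_sixteen_dvd P)

theorem Int_a₁ (P : FreyPackage) : P.freyCurveInt.a₁ = 1 := rfl

theorem Int_a₃ (P : FreyPackage) : P.freyCurveInt.a₃ = 0 := rfl

theorem Int_a₆ (P : FreyPackage) : P.freyCurveInt.a₆ = 0 := rfl

/-- the two integer divisions are exact: `4 ∣ b^p - 1 - a^p` (`P.ha4`, `P.hb2`, `p` odd `≥ 5`), `16 ∣ a^p b^p`; see the proofs of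
`S13.frey_a₂_int`, `S13.frey_a₄_two`.  `WeierstrassCurve.ext`, `Int.cast_div`. -/
theorem freyInt_map (P : FreyPackage) :
    P.freyCurveInt.map (Int.castRingHom ℚ) = P.freyCurve := by
  have h2 : (4 : ℚ) * (P.freyCurveInt.a₂ : ℚ) = (P.b : ℚ) ^ P.p - 1 - (P.a : ℚ) ^ P.p := by
    exact_mod_cast congrArg (Int.cast : ℤ → ℚ) (Int_a₂ P)
  have h4 : (16 : ℚ) * (P.freyCurveInt.a₄ : ℚ) = -((P.a : ℚ) ^ P.p) * ((P.b : ℚ) ^ P.p) := by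
    exact_mod_cast congrArg (Int.cast : ℤ → ℚ) (Int_a₄ P)
  ext
  · rw [map_a₁, Int_a₁, map_one]; rfl
  · rw [map_a₂, eq_intCast]
    show (P.freyCurveInt.a₂ : ℚ) = ((P.b : ℚ) ^ P.p - 1 - (P.a : ℚ) ^ P.p) / 4
    rw [← h2]; ring
  · rw [map_a₃, Int_a₃, map_zero]; rfl
  · rw [map_a₄, eq_intCast]
    show (P.freyCurveInt.a₄ : ℚ) = -((P.a : ℚ) ^ P.p) * ((P.b : ℚ) ^ P.p) / 16
    rw [← h4]; ring
  · rw [map_a₆, Int_a₆, map_zero]; rfl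

/-- `256 Δ = (abc)^(2p)` (cast to `ℚ` with `freyInt_map`, `map_Δ`; then `ring`-type computation with `P.hFLT`). -/
theorem freyInt_Δ (P : FreyPackage) :
    256 * P.freyCurveInt.Δ = (P.a * P.b * P.c) ^ (2 * P.p) := by
  have e1 : 1 + 4 * P.freyCurveInt.a₂ = P.b ^ P.p - P.a ^ P.p := by
    have := Int_a₂ P
    linarith
  have e2 := Int_a₄ P
  have e3 : 256 * P.freyCurveInt.Δ = (16 * P.freyCurveInt.a₄) ^ 2 *
      ((1 + 4 * P.freyCurveInt.a₂) ^ 2 - 4 * (16 * P.freyCurveInt.a₄)) := by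
    simp only [WeierstrassCurve.Δ, WeierstrassCurve.b₂, WeierstrassCurve.b₄,
      WeierstrassCurve.b₆, WeierstrassCurve.b₈, Int_a₁, Int_a₃, Int_a₆]
    ring
  rw [e3, e1, e2, mul_comm 2 P.p, pow_mul, mul_pow, mul_pow, ← P.hFLT]
  ring

/-- `c₄ = a^(2p) + a^p b^p + b^(2p)`. -/
theorem freyInt_c₄ (P : FreyPackage) :
    P.freyCurveInt.c₄ = P.a ^ (2 * P.p) + P.a ^ P.p * P.b ^ P.p + P.b ^ (2 * P.p) := by
  have e1 : 1 + 4 * P.freyCurveInt.a₂ = P.b ^ P.p - P.a ^ P.p := by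
    have := Int_a₂ P
    linarith
  have e2 := Int_a₄ P
  have e3 : P.freyCurveInt.c₄ = (1 + 4 * P.freyCurveInt.a₂) ^ 2 - 3 * (16 * P.freyCurveInt.a₄) := by
    simp only [WeierstrassCurve.c₄, WeierstrassCurve.b₂, WeierstrassCurve.b₄, Int_a₁, Int_a₃]
    ring
  rw [e3, e1, e2, mul_comm 2 P.p, pow_mul, pow_mul]
  ring

theorem freyInt_Δ_ne_zero (P : FreyPackage) : P.freyCurveInt.Δ ≠ 0 := by
  intro h
  have h1 := freyInt_Δ P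
  rw [h, mul_zero] at h1
  exact pow_ne_zero _ P.habc0 h1.symm

/-- `ℓ` odd: `ℓ ∣ 256 Δ`, coprime to `256`.  `ℓ = 2`: `2^(2p) ∣ 2^8 Δ`, `2p > 8`. -/
theorem freyInt_dvd_Δ (P : FreyPackage) {ℓ : ℕ} (hℓ : ℓ.Prime)
    (h : (ℓ : ℤ) ∣ P.a * P.b * P.c) : (ℓ : ℤ) ∣ P.freyCurveInt.Δ := by
  have hpr : Prime (ℓ : ℤ) := Nat.prime_iff_prime_int.1 hℓ
  have hp5 := P.hp5
  by_cases h2 : ℓ = 2
  · subst h2
    obtain ⟨k, hk⟩ := h
    have h1 := freyInt_Δ P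
    have e : 2 * P.p = 9 + (2 * P.p - 9) := by omega
    rw [hk, mul_pow, e, pow_add] at h1
    push_cast at h1 ⊢
    refine ⟨2 ^ (2 * P.p - 9) * k ^ (9 + (2 * P.p - 9)), ?_⟩
    have h3 : (256 : ℤ) * P.freyCurveInt.Δ =
        256 * (2 * (2 ^ (2 * P.p - 9) * k ^ (9 + (2 * P.p - 9)))) := by
      rw [h1]; ring
    exact mul_left_cancel₀ (by norm_num) h3
  · have h1 : (ℓ : ℤ) ∣ 256 * P.freyCurveInt.Δ := by
      rw [freyInt_Δ]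
      exact dvd_pow h (by omega)
    rcases hpr.dvd_or_dvd h1 with h3 | h3
    · exfalso
      have h4 : (ℓ : ℤ) ∣ 2 := by
        have : (256 : ℤ) = 2 ^ 8 := by norm_num
        rw [this] at h3
        exact hpr.dvd_of_dvd_pow h3
      have h5 : ℓ ∣ 2 := by exact_mod_cast h4
      exact h2 ((Nat.prime_dvd_prime_iff_eq hℓ Nat.prime_two).1 h5)
    · exact h3

/-- `ℓ ∣ a`: `c₄ ≡ b^(2p)`; `ℓ ∣ b`: `c₄ ≡ a^(2p)`; `ℓ ∣ c`: `a^p ≡ -b^p`, `c₄ ≡ b^(2p)`; pairwise coprimality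
(`P.hgcdab`, `P.hgcdac`, `P.hgcdbc`, `S13.frey_not_dvd_of_gcd`). -/
theorem freyInt_not_dvd_c₄ (P : FreyPackage) {ℓ : ℕ} (hℓ : ℓ.Prime)
    (h : (ℓ : ℤ) ∣ P.a * P.b * P.c) : ¬ (ℓ : ℤ) ∣ P.freyCurveInt.c₄ := by
  have hpr : Prime (ℓ : ℤ) := Nat.prime_iff_prime_int.1 hℓ
  have hp0 := P.hp0
  intro hc
  rw [freyInt_c₄, mul_comm 2 P.p, pow_mul, pow_mul] at hc
  rcases hpr.dvd_or_dvd h with h1 | h1
  · rcases hpr.dvd_or_dvd h1 with h2 | h2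
    · -- `ℓ ∣ a`
      have hA : (ℓ : ℤ) ∣ P.a ^ P.p := dvd_pow h2 hp0
      have hB : (ℓ : ℤ) ∣ (P.b ^ P.p) ^ 2 := by
        have e : (P.b ^ P.p) ^ 2 = ((P.a ^ P.p) ^ 2 + P.a ^ P.p * P.b ^ P.p + (P.b ^ P.p) ^ 2) -
            P.a ^ P.p * (P.a ^ P.p + P.b ^ P.p) := by ring
        rw [e]
        exact dvd_sub hc (Dvd.dvd.mul_right hA _)
      exact frey_not_dvd_of_gcd P.hgcdab ℓ hℓ h2 (hpr.dvd_of_dvd_pow (hpr.dvd_of_dvd_pow hB))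
    · -- `ℓ ∣ b`
      have hB : (ℓ : ℤ) ∣ P.b ^ P.p := dvd_pow h2 hp0
      have hA : (ℓ : ℤ) ∣ (P.a ^ P.p) ^ 2 := by
        have e : (P.a ^ P.p) ^ 2 = ((P.a ^ P.p) ^ 2 + P.a ^ P.p * P.b ^ P.p + (P.b ^ P.p) ^ 2) -
            P.b ^ P.p * (P.a ^ P.p + P.b ^ P.p) := by ring
        rw [e]
        exact dvd_sub hc (Dvd.dvd.mul_right hB _)
      exact frey_not_dvd_of_gcd P.hgcdab ℓ hℓ (hpr.dvd_of_dvd_pow (hpr.dvd_of_dvd_pow hA)) h2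
  · -- `ℓ ∣ c`
    have hC : (ℓ : ℤ) ∣ P.a ^ P.p + P.b ^ P.p := by
      rw [P.hFLT]
      exact dvd_pow h1 hp0
    have hAB : (ℓ : ℤ) ∣ P.a ^ P.p * P.b ^ P.p := by
      have e : P.a ^ P.p * P.b ^ P.p = (P.a ^ P.p + P.b ^ P.p) * (P.a ^ P.p + P.b ^ P.p) -
          ((P.a ^ P.p) ^ 2 + P.a ^ P.p * P.b ^ P.p + (P.b ^ P.p) ^ 2) := by ring
      rw [e]
      exact dvd_sub (Dvd.dvd.mul_right hC _) hc
    rcases hpr.dvd_or_dvd hAB with h2 | h2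
    · exact frey_not_dvd_of_gcd P.hgcdac ℓ hℓ (hpr.dvd_of_dvd_pow h2) h1
    · exact frey_not_dvd_of_gcd P.hgcdbc ℓ hℓ (hpr.dvd_of_dvd_pow h2) h1

end Fermat.Agent.S12
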