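import Fermat.Agent.S12.Defs
import Fermat.Agent.S13

/-!
# S12 / Frey : from the cofixed line to a generator
-/

set_option autoImplicit false

namespace Fermat.Agent.S12

open WeierstrassCurve WeierstrassCurve.Affine WeierstrassCurve.Affine.Point Fermat.Agent.S05
  Fermat.Agent.S13

/-- For a Galois-stable line `N` the FIRST alternative of `S13.frey_ratprod` is impossible: copy the first branch of the
proof of `S13.result` (in `Fermat/Agent/S13.lean`): in that alternative the `left` branch of the proof of `S13.inertia_p`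
shows `A.inertiaSubgroupIn ℚ ≤ fixGroup P N` for all `A ∣ p`; with `S13.inertia_away`, `S13.eq_top_of_inertia_le`,
`S13.exists_finite_level`, `fixGroup P N = ⊤`, contradicting `S13.frey_no_fixed`. -/
theorem line_atp (P : FreyPackage) (N : Submodule (ZMod P.p) (Tors P))
    (hN : IsGaloisStable ℚ N) (hbot : N ≠ ⊥) (htop : N ≠ ⊤) :
    ∀ A : ValuationSubring Kb, A.LiesOverPrime P.p → ∀ x : Tors P, x ≠ 0 →
      (xc (x : Pt P) ∉ A ↔ x ∈ N) := by
  have : Fact P.p.Prime := ⟨P.pp⟩
  obtain ⟨hfin, hcard⟩ := frey_card_le P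
  obtain ⟨hat, hco⟩ := isAtom_isCoatom_of_card_le hcard N hbot htop
  obtain ⟨F, hFfin, hF⟩ := exists_finite_level P hfin
  rcases frey_ratprod P N hN hbot htop with h | h
  · exfalso
    have hp : ∀ A : ValuationSubring Kb, A.LiesOverPrime P.p →
        A.inertiaSubgroupIn ℚ ≤ fixGroup P N := by
      intro A hA σ hσ
      obtain ⟨W₀, hW1, hW⟩ := frey_local_p P A hA
      refine fix_of_filtration hat (actHom P σ) (fun x hx => hN σ x hx)
        (W₀.comap (Submodule.subtype _).toAddMonoidHom) (torsE1 P A) ?_ ?_ ?_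
      · intro x
        exact (hW σ hσ x (tors_nsmul P x)).1
      · intro x hx
        rcases (hW σ hσ x (tors_nsmul P x)).2 hx with h' | h'
        · exact Or.inl (Subtype.ext h')
        · exact Or.inr h'
      · rintro x hx (h' | h')
        · exact h'
        · exact absurd (h A hA x hx) h'
    have htopH : fixGroup P N = ⊤ := by
      apply eq_top_of_inertia_le _ (fixGroup_normal P N hN) F hFfin
      · intro σ hσ x _
        exact hF σ hσ x
      · intro ℓ hℓ A hA
        by_cases hℓp : ℓ = P.p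
        · subst hℓp
          exact hp A hA
        · exact (inertia_away P N hN hat hco hℓ hℓp A hA).1
    obtain ⟨t, htN, ht0⟩ := Submodule.exists_mem_ne_zero_of_ne_bot hbot
    obtain ⟨σ, hσ⟩ := frey_no_fixed P (t : Pt P) (fun h0 => ht0 (Subtype.ext h0)) (tors_nsmul P t)
    apply hσ
    have hmem : σ ∈ fixGroup P N := by
      rw [htopH]
      exact Subgroup.mem_top σ
    exact congrArg Subtype.val (hmem t htN)
  · exact h

/-- `Q` = any nonzero element of `N` (`Submodule.exists_mem_ne_zero_of_ne_bot`); `stab`, `cofix`: `S13.rp_line`;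
`fin`, `card`: `S13.frey_card_le`, `S13.rp_dims`, `S13.rp_coe_tors` (`p < p ^ 2`); `atp`: `line_atp`
(`k • Q ∈ N`, `k • Q ≠ 0`). -/
theorem exists_lineData (P : FreyPackage)
    (h : HasGaloisStableCofixedLine (K := AlgebraicClosure ℚ) ℚ P.freyCurve P.p) :
    ∃ Q : Pt P, LineData P Q := by
  have : Fact P.p.Prime := ⟨P.pp⟩
  obtain ⟨N, hN, hbot, htop, hco⟩ := h
  obtain ⟨t, htN, ht0⟩ := Submodule.exists_mem_ne_zero_of_ne_bot hbot
  obtain ⟨hfin, -⟩ := frey_card_le P
  refine ⟨(t : Pt P), ⟨fun h0 => ht0 (Subtype.ext h0), tors_nsmul P t, ?_, ?_, ?_, ?_, ?_⟩⟩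
  · intro σ
    obtain ⟨k, hk⟩ := rp_line P N hbot htop htN ht0 (hN σ t htN)
    exact ⟨k, congrArg Subtype.val hk⟩
  · intro σ R hR
    obtain ⟨k, hk⟩ := rp_line P N hbot htop htN ht0 (hco σ ⟨R, (mem_tors_iff P R).2 hR⟩)
    exact ⟨k, congrArg Subtype.val hk⟩
  · rw [← rp_coe_tors]
    exact Set.toFinite _
  · rw [← rp_coe_tors, ← Nat.card_coe_set_eq]
    have h1 : Nat.card (Tors P) = P.p ^ 2 := (rp_dims P N hbot htop).2
    have h2 : P.p < P.p ^ 2 := by
      have := P.pp.one_lt
      nlinarith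
    calc P.p < P.p ^ 2 := h2
      _ = Nat.card (Tors P) := h1.symm
  · intro A hA k hk
    have hord : addOrderOf t = P.p := addOrderOf_eq_prime (Subtype.ext (tors_nsmul P t)) ht0
    have hk0 : (k • t : Tors P) ≠ 0 := by
      intro h0
      exact hk (hord ▸ addOrderOf_dvd_of_nsmul_eq_zero h0)
    exact (line_atp P N hN hbot htop A hA (k • t) hk0).2 (N.nsmul_mem htN k)

end Fermat.Agent.S12
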