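import Fermat.Agent.S12.Frey.Datum
import Fermat.Agent.S12.Abs.Mult
import Fermat.Agent.Lib.Frobenius
import Fermat.Agent.GS.Bridge.Gal

/-!
# S12 / Frey : the local dichotomy for the Frey curve at `A ∣ ℓ ≠ p`
-/

set_option autoImplicit false

namespace Fermat.Agent.S12

open WeierstrassCurve WeierstrassCurve.Affine Fermat.Agent.S05 Fermat.Agent.S13

/-- `k • Q ≠ 0` when `p ∤ k`. -/
theorem Local_nsmul_ne_zero (P : FreyPackage) {Q : Pt P} (L : LineData P Q) {k : ℕ}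
    (hk : ¬ P.p ∣ k) : k • Q ≠ 0 := by
  intro h
  have : Fact P.p.Prime := ⟨P.pp⟩
  have hord : addOrderOf Q = P.p := addOrderOf_eq_prime L.tor L.ne
  exact hk (hord ▸ addOrderOf_dvd_iff_nsmul_eq_zero.2 h)

/-- `exists_locDatum`; `φ` a Frobenius at `A` (`Lib.Frobenius.exists_isFrobeniusAt_of_liesOverPrime`, `GS.frobenius_spec`);
`σ = (φ : Kb →+* Kb)`, `τ = DistribSMul.toAddMonoidHom (Pt P) φ` (or `Point.map φ.toAlgHom`), `S13.xc_smul`, `map_ratCast`,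
`S13.f2_smul_ne_zero`; `(p : Kb) ∉ 𝔪` (`S13.freyP_val_natCast` / `S05.val_intCast_eq_one`).
`D.c ∉ 𝔪`: `abs_good` and `ψ_unit_of_torsion`;  `D.c ∈ 𝔪`: `abs_mult`; `BadAt` from `ξ(kQ) ∈ 𝔪`: `D.ψ_sq`,
`S05.nonunits_of_pow`. -/
theorem frey_local (P : FreyPackage) {Q : Pt P} (L : LineData P Q) {ℓ : ℕ} (hℓ : ℓ.Prime)
    (hℓp : ℓ ≠ P.p) (A : ValuationSubring Kb) (hA : A.LiesOverPrime ℓ) :
    (¬ (ℓ : ℤ) ∣ P.a * P.b * P.c → P.p - 1 ≤ 2 * ℓ) ∧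
      (GoodAt P Q A ∨ ((ℓ : ℤ) ∣ P.a * P.b * P.c ∧ P.p + 1 ≤ 2 * ℓ ∧ BadAt P Q A)) := by
  obtain ⟨e, D, hξ, hψ, hB, hc, hdisc, ⟨T, hT, hξT⟩, hiff⟩ := exists_locDatum P hℓ A hA
  obtain ⟨φ, hφ⟩ := Fermat.Agent.Lib.Frobenius.exists_isFrobeniusAt_of_liesOverPrime A hℓ hA
  obtain ⟨hσA, hσF⟩ := Fermat.Agent.GS.frobenius_spec A hφ
  have hp2 : P.p ≠ 2 := by have := P.hp5; omega
  have hpA : (P.p : Kb) ∉ A.nonunits :=
    not_nonunits_of_val_eq_one A (freyP_val_natCast A hℓ hA (n := P.p)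
      (fun h => hℓp ((Nat.prime_dvd_prime_iff_eq hℓ P.pp).1 h)))
  have hτξ : ∀ R : Pt P, R ≠ 0 →
      D.ξ (Point.map (W' := P.freyCurve) φ.toAlgHom R) = (φ : Kb →+* Kb) (D.ξ R) := by
    intro R _
    rw [hξ, hξ]
    show xc (φ • R) - (e : Kb) = φ (xc R - (e : Kb))
    rw [xc_smul, map_sub, map_ratCast]
  have hτ0 : ∀ R : Pt P, R ≠ 0 → Point.map (W' := P.freyCurve) φ.toAlgHom R ≠ 0 :=
    fun R hR => f2_smul_ne_zero P φ hR
  have hcof : ∀ R : Pt P, P.p • R = 0 →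
      ∃ k : ℕ, Point.map (W' := P.freyCurve) φ.toAlgHom R - R = k • Q :=
    fun R hR => L.cofix φ R hR
  by_cases hcu : D.c ∈ A.nonunits
  · have hdvd := hiff.1 hcu
    refine ⟨fun h => absurd hdvd h, ?_⟩
    rcases abs_mult D A hB hcu hdisc hT hξT P.pp hp2 hpA hℓ.one_lt L.fin L.card
      (φ : Kb →+* Kb) (Point.map (W' := P.freyCurve) φ.toAlgHom) hσA hσF hτξ hτ0 L.ne L.tor hcof
      with h | ⟨h1, h2⟩
    · left
      intro k hk
      rw [← hψ]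
      exact h k hk
    · right
      refine ⟨hdvd, h1, fun k hk => ?_⟩
      have hk0 := Local_nsmul_ne_zero P L hk
      have hsq := D.ψ_sq (k • Q) hk0
      have hξk := h2 k hk
      apply nonunits_of_pow A (n := 2)
      rw [← hψ, hsq]
      have e1 : 4 * D.ξ (k • Q) ^ 3 + D.B * D.ξ (k • Q) ^ 2 + 4 * D.c * D.ξ (k • Q) =
          (4 * D.ξ (k • Q) ^ 2 + D.B * D.ξ (k • Q) + 4 * D.c) * D.ξ (k • Q) := by ring
      rw [e1]
      have hξA := mem_of_nonunits A hξk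
      exact mem_mul_nonunits A (add_mem (add_mem (mul_mem (ofNat_mem A 4) (pow_mem hξA 2))
        (mul_mem hB hξA)) (mul_mem (ofNat_mem A 4) hc)) hξk
  · refine ⟨fun _ => abs_good D A hB hc hdisc hcu P.pp hp2 hpA hℓ.one_lt L.fin L.card
      (φ : Kb →+* Kb) (Point.map (W' := P.freyCurve) φ.toAlgHom) hσF hτξ L.tor hcof, Or.inl ?_⟩
    intro k hk
    rw [← hψ]
    refine ψ_unit_of_torsion D A hB hc hdisc P.pp hp2 hpA (Local_nsmul_ne_zero P L hk) ?_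
      (Or.inr hcu)
    rw [smul_comm, L.tor, nsmul_zero]

end Fermat.Agent.S12
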